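import Fermat.Agent.GenusLB.Cusp
import Fermat.Agent.Genus.Eig

/-!
# Existence of eigenbases for `T`
-/

set_option autoImplicit false

open UpperHalfPlane ModularForm ModularFormClass MatrixGroups EisensteinSeries Filter
open scoped Manifold MatrixGroups ModularForm Topology Real

namespace Fermat.Agent.GenusLB

open Fermat.Agent.LevelOne

variable {X : Type} [MulAction SL(2, ℤ) X] [Fintype X] [DecidableEq X]

omit [DecidableEq X] in
variable (X) in
theorem exists_pow_T : ∃ h : ℕ, 0 < h ∧ ∀ x : X, ModularGroup.T ^ h • x = x := by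
  refine ⟨orderOf (MulAction.toPermHom SL(2, ℤ) X ModularGroup.T), orderOf_pos _, fun x ↦ ?_⟩
  have := pow_orderOf_eq_one (MulAction.toPermHom SL(2, ℤ) X ModularGroup.T)
  rw [← map_pow] at this
  exact congrArg (fun p : Equiv.Perm X ↦ p x) this

/-- the eigenvectors -/
def eigSet (X : Type) [MulAction SL(2, ℤ) X] (h : ℕ) : Set (X → ℂ) :=
  {v : X → ℂ | ∃ a : ℕ, a < h ∧
      ∀ x, v (ModularGroup.T • x) = Complex.exp (2 * π * Complex.I / h) ^ a * v x}

omit [Fintype X] [DecidableEq X] in
theorem span_eigSet {h : ℕ} (h0 : 0 < h) (hT : ∀ x : X, ModularGroup.T ^ h • x = x) :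
    ⊤ ≤ Submodule.span ℂ (eigSet X h) := by
  intro v _
  set z := Complex.exp (2 * π * Complex.I / h) with hz
  have hzp : IsPrimitiveRoot z h := Complex.isPrimitiveRoot_exp h h0.ne'
  have hz0 : z ≠ 0 := Complex.exp_ne_zero _
  let w : ℕ → X → ℂ := fun a x ↦ ∑ b ∈ Finset.range h, (z⁻¹ ^ b) ^ a * v (ModularGroup.T ^ b • x)
  have hw : ∀ a ∈ Finset.range h, w a ∈ Submodule.span ℂ (eigSet X h) := by
    intro a ha
    refine Submodule.subset_span ⟨a, Finset.mem_range.mp ha, fun x ↦ ?_⟩
    set g : ℕ → ℂ := fun b ↦ (z⁻¹ ^ b) ^ a * v (ModularGroup.T ^ b • x) with hg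
    have h1 : ∑ b ∈ Finset.range h, g (b + 1) = ∑ b ∈ Finset.range h, g b := by
      have h2 := Finset.sum_range_succ g h
      have h3 := Finset.sum_range_succ' g h
      have h4 : g h = g 0 := by
        simp only [hg]
        rw [hT, inv_pow, hzp.pow_eq_one]
        simp
      rw [h2, h4] at h3
      exact (add_right_cancel h3).symm
    show ∑ b ∈ Finset.range h, (z⁻¹ ^ b) ^ a * v (ModularGroup.T ^ b • ModularGroup.T • x) =
      z ^ a * ∑ b ∈ Finset.range h, g b
    rw [← h1, Finset.mul_sum]
    refine Finset.sum_congr rfl fun b _ ↦ ?_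
    simp only [hg]
    rw [smul_smul, ← pow_succ, pow_succ z⁻¹, mul_pow, inv_pow z a]
    field_simp
  have hv : v = (h : ℂ)⁻¹ • ∑ a ∈ Finset.range h, w a := by
    ext x
    simp only [Pi.smul_apply, Finset.sum_apply, smul_eq_mul, w]
    rw [Finset.sum_comm]
    simp_rw [← Finset.sum_mul]
    rw [Finset.sum_eq_single 0]
    · have hh : (h : ℂ) ≠ 0 := by exact_mod_cast h0.ne'
      simp
      field_simp
    · intro b hb hb0
      have h1 : z⁻¹ ^ b ≠ 1 := hzp.inv.pow_ne_one_of_pos_of_lt hb0 (Finset.mem_range.mp hb)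
      rw [geom_sum_eq h1, ← pow_mul, mul_comm b h, pow_mul, hzp.inv.pow_eq_one, one_pow, sub_self,
        zero_div, zero_mul]
    · intro h1
      exact absurd (Finset.mem_range.mpr h0) h1
  rw [hv]
  exact Submodule.smul_mem _ _ (Submodule.sum_mem _ hw)

variable (X) in
theorem exists_isEigBasis : ∃ (B : Matrix X X ℂ) (e : X → ℝ), IsEigBasis B e ∧
    (Finset.univ.filter fun i ↦ e i ≠ 0).card + Nat.card (MulAction.orbitRel.Quotient
      (Subgroup.zpowers (ModularGroup.T : SL(2, ℤ))) X) = Fintype.card X := by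
  classical
  obtain ⟨h, h0, hT⟩ := exists_pow_T X
  have hspan := span_eigSet h0 hT
  let b0 := Module.Basis.ofSpan hspan
  let σ := b0.indexEquiv (Pi.basisFun ℂ X)
  let b : Module.Basis X ℂ (X → ℂ) := b0.reindex σ
  have hb : ∀ i, b i ∈ eigSet X h := fun i ↦
    Module.Basis.ofSpan_subset hspan ⟨σ.symm i, (b0.reindex_apply σ i).symm⟩
  choose a ha hab using hb
  let e : X → ℝ := fun i ↦ (a i : ℝ) / h
  let B : Matrix X X ℂ := Matrix.of fun i x ↦ b i x
  have hhR : (0 : ℝ) < h := by exact_mod_cast h0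
  have hhC : (h : ℂ) ≠ 0 := by exact_mod_cast h0.ne'
  have hz : ∀ i, Complex.exp (2 * π * Complex.I / h) ^ a i =
      Complex.exp (2 * π * Complex.I * e i) := by
    intro i
    rw [← Complex.exp_nat_mul]
    congr 1
    simp only [e]
    push_cast
    field_simp
  have hBE : IsEigBasis B e :=
    { det_ne := by
        have h1 : LinearIndependent ℂ B.row := b.linearIndependent
        have h2 := Matrix.linearIndependent_rows_iff_isUnit.mp h1
        rw [Matrix.isUnit_iff_isUnit_det, isUnit_iff_ne_zero] at h2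
        exact h2
      nonneg := fun i ↦ by positivity
      lt_one := fun i ↦ by
        rw [div_lt_one hhR]
        exact_mod_cast ha i
      eig := fun i x ↦ by
        rw [← hz]
        exact hab i x }
  refine ⟨B, e, hBE, ?_⟩
  have he0 : ∀ i, e i = 0 ↔ Complex.exp (2 * π * Complex.I / h) ^ a i = 1 := by
    intro i
    have hzp : IsPrimitiveRoot (Complex.exp (2 * π * Complex.I / h)) h :=
      Complex.isPrimitiveRoot_exp h h0.ne'
    rw [hzp.pow_eq_one_iff_dvd]
    constructor
    · intro hi
      have : (a i : ℝ) = 0 := by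
        simpa [e, hhR.ne'] using hi
      have : a i = 0 := by exact_mod_cast this
      rw [this]
      exact dvd_zero _
    · intro hi
      have := Nat.eq_zero_of_dvd_of_lt hi (ha i)
      simp [e, this]
  set Ω := MulAction.orbitRel.Quotient (Subgroup.zpowers (ModularGroup.T : SL(2, ℤ))) X with hΩ
  have : Finite Ω := Quotient.finite _
  have := Fintype.ofFinite Ω
  -- the count
  have hle : (Finset.univ.filter fun i ↦ e i = 0).card ≤ Nat.card Ω := by
    let w : {i // e i = 0} → Genus.eig (Y := X) (ModularGroup.T : SL(2, ℤ)) 1 :=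
      fun i ↦ ⟨b i.1, by
        rw [Genus.mem_eig]
        intro y
        rw [hab, (he0 i.1).mp i.2]⟩
    have hw : LinearIndependent ℂ w := by
      apply LinearIndependent.of_comp (Submodule.subtype _)
      exact b.linearIndependent.comp (fun i : {i // e i = 0} ↦ i.1) Subtype.val_injective
    have h1 := hw.fintype_card_le_finrank
    rw [Fintype.card_subtype] at h1
    exact h1.trans (Genus.finrank_eig_le (Y := X) _ 1 one_ne_zero)
  have hge : Nat.card Ω ≤ (Finset.univ.filter fun i ↦ e i = 0).card := by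
    let Q : X → Ω := fun x ↦ Quotient.mk _ x
    have hQ : ∀ x, Q (ModularGroup.T • x) = Q x := fun x ↦
      Quotient.sound (⟨⟨ModularGroup.T, Subgroup.mem_zpowers _⟩, rfl⟩)
    let L : (X → ℂ) →ₗ[ℂ] (X → ℂ) := LinearMap.funLeft ℂ ℂ (fun x ↦ ModularGroup.T • x)
    have hL : ∀ i, L (b i) = Complex.exp (2 * π * Complex.I / h) ^ a i • b i := by
      intro i
      ext x
      exact hab i x
    have hco : ∀ i v, b.coord i (L v) = Complex.exp (2 * π * Complex.I / h) ^ a i * b.coord i v := by
      intro i v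
      have h1 : (b.coord i).comp L = Complex.exp (2 * π * Complex.I / h) ^ a i • b.coord i := by
        refine b.ext fun j ↦ ?_
        rw [LinearMap.comp_apply, hL, map_smul, LinearMap.smul_apply]
        by_cases hij : i = j
        · rw [hij]
        · simp [Ne.symm hij]
      exact congrArg (fun φ : (X → ℂ) →ₗ[ℂ] ℂ ↦ φ v) h1
    let M : (Ω → ℂ) →ₗ[ℂ] ({i // e i = 0} → ℂ) :=
      LinearMap.pi fun i ↦ (b.coord i.1).comp (LinearMap.funLeft ℂ ℂ Q)
    have hM : Function.Injective M := by
      rw [← LinearMap.ker_eq_bot, LinearMap.ker_eq_bot']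
      intro u hu
      have h1 : ∀ i, b.coord i (LinearMap.funLeft ℂ ℂ Q u) = 0 := by
        intro i
        by_cases hi : e i = 0
        · exact congrFun hu ⟨i, hi⟩
        · have h2 := hco i (LinearMap.funLeft ℂ ℂ Q u)
          have h3 : L (LinearMap.funLeft ℂ ℂ Q u) = LinearMap.funLeft ℂ ℂ Q u := by
            ext x
            show u (Q (ModularGroup.T • x)) = u (Q x)
            rw [hQ]
          rw [h3] at h2
          have h4 : (Complex.exp (2 * π * Complex.I / h) ^ a i - 1) *
              b.coord i (LinearMap.funLeft ℂ ℂ Q u) = 0 := by linear_combination -h2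
          exact (mul_eq_zero.mp h4).resolve_left (sub_ne_zero.mpr fun h5 ↦ hi ((he0 i).mpr h5))
      have h2 : LinearMap.funLeft ℂ ℂ Q u = 0 := by
        apply b.repr.injective
        ext i
        simpa using h1 i
      ext ω
      obtain ⟨x, rfl⟩ := Quotient.exists_rep ω
      exact congrFun h2 x
    have h1 := LinearMap.finrank_le_finrank_of_injective hM
    rw [Module.finrank_fintype_fun_eq_card, Module.finrank_fintype_fun_eq_card,
      Fintype.card_subtype, ← Nat.card_eq_fintype_card] at h1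
    exact h1
  have h1 := Finset.card_filter_add_card_filter_not (s := (Finset.univ : Finset X))
    (fun i ↦ e i = 0)
  rw [Finset.card_univ] at h1
  have h2 : (Finset.univ.filter fun i ↦ e i ≠ 0).card =
    (Finset.univ.filter fun i ↦ ¬ e i = 0).card := rfl
  omega

/-- **Main theorem**: existence of a tuple of `X`-forms with everywhere nonvanishing determinant
and the expected total weight. -/
theorem exists_good_tuple [MulAction.IsPretransitive SL(2, ℤ) X]
    (hneg : ∀ x : X, (-1 : SL(2, ℤ)) • x = x)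
    (hex : ∃ (k : X → ℤ) (f : X → X → ℍ → ℂ), IsTuple k f) :
    ∃ (k : X → ℤ) (f : X → X → ℍ → ℂ), (∀ j, IsXForm (k j) (f j)) ∧
      (∀ j, 0 ≤ k j ∧ Even (k j)) ∧
      (∀ τ, (Matrix.of fun x j => f j x τ).det ≠ 0) ∧
      ∑ j, k j = 6 * ((Fintype.card X : ℤ) - Nat.card (MulAction.orbitRel.Quotient
        (Subgroup.zpowers (ModularGroup.T : SL(2, ℤ))) X)) := by
  obtain ⟨k, f, hf⟩ := exists_isMinTuple hex
  obtain ⟨B, e, hB, hcount⟩ := exists_isEigBasis X
  refine ⟨k, f, hf.form, fun j ↦ ⟨hf.nonneg j, hf.even hneg j⟩, hf.det_ne_zero hneg, ?_⟩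
  have h1 := two_mul_sum_weights hf hneg hB _ rfl
  omega

end Fermat.Agent.GenusLB
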