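import Fermat.Agent.GenusLB.Interior

/-!
# Behaviour of minimal tuples at the cusp
-/

set_option autoImplicit false

open UpperHalfPlane ModularForm ModularFormClass MatrixGroups EisensteinSeries Filter
open scoped Manifold MatrixGroups ModularForm Topology Real

namespace Fermat.Agent.GenusLB

open Fermat.Agent.LevelOne

/-! ### the functions `exp (2 π i e τ)` -/

/-- the function `exp (2 π i e τ)` for real `e` -/
noncomputable def qe (e : ℝ) (τ : ℍ) : ℂ := Complex.exp (2 * π * Complex.I * e * τ)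

theorem qe_ne_zero (e : ℝ) (τ : ℍ) : qe e τ ≠ 0 := Complex.exp_ne_zero _

theorem qe_add (e e' : ℝ) (τ : ℍ) : qe (e + e') τ = qe e τ * qe e' τ := by
  rw [qe, qe, qe, ← Complex.exp_add]
  congr 1
  push_cast
  ring

theorem qe_zero (τ : ℍ) : qe 0 τ = 1 := by simp [qe]

theorem qe_neg_mul (e : ℝ) (τ : ℍ) : qe (-e) τ * qe e τ = 1 := by
  rw [← qe_add, neg_add_cancel, qe_zero]

theorem qe_mul_neg (e : ℝ) (τ : ℍ) : qe e τ * qe (-e) τ = 1 := by
  rw [← qe_add, add_neg_cancel, qe_zero]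

theorem norm_qe (e : ℝ) (τ : ℍ) : ‖qe e τ‖ = Real.exp (-2 * π * e * τ.im) := by
  rw [qe, Complex.norm_exp]
  congr 1
  simp [mul_assoc]

theorem qe_vadd (e : ℝ) (τ : ℍ) :
    qe e ((1 : ℝ) +ᵥ τ) = Complex.exp (2 * π * Complex.I * e) * qe e τ := by
  rw [qe, qe, ← Complex.exp_add]
  congr 1
  rw [UpperHalfPlane.coe_vadd]
  push_cast
  ring

theorem mdiff_qe (e : ℝ) : MDiff (qe e) := by
  rw [UpperHalfPlane.mdifferentiable_iff]
  have h : DifferentiableOn ℂ (fun z : ℂ ↦ Complex.exp (2 * π * Complex.I * e * z))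
      {z : ℂ | 0 < z.im} := by fun_prop
  refine h.congr fun z hz ↦ ?_
  simp only [Function.comp_apply, qe]
  rw [ofComplex_apply_of_im_pos hz]

theorem qe_sum {ι : Type*} (s : Finset ι) (e : ι → ℝ) (τ : ℍ) :
    ∏ i ∈ s, qe (e i) τ = qe (∑ i ∈ s, e i) τ := by
  classical
  induction s using Finset.induction_on with
  | empty => simp [qe_zero]
  | insert a s ha ih => rw [Finset.prod_insert ha, Finset.sum_insert ha, ih, qe_add]

theorem periodic_of_vadd {g : ℍ → ℂ} (hg : ∀ τ, g ((1 : ℝ) +ᵥ τ) = g τ) :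
    Function.Periodic (g ∘ ofComplex) (1 : ℝ) := by
  intro w
  by_cases hw : 0 < w.im
  · have h2 := hg (ofComplex w)
    rw [← ofComplex_add_one hw] at h2
    simpa using h2
  · have h1 : ¬ 0 < (w + 1).im := by simpa using hw
    simp only [Function.comp_apply]
    rw [ofComplex_apply_of_im_nonpos (not_lt.mp hw),
      ofComplex_apply_of_im_nonpos (by simpa using hw)]

theorem isBigO_of_tendsto_zero {g : ℍ → ℂ} (hg : ∀ τ, g ((1 : ℝ) +ᵥ τ) = g τ) (hd : MDiff g)
    (h0 : Tendsto g atImInfty (𝓝 0)) :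
    g =O[atImInfty] fun τ : ℍ ↦ Real.exp (-2 * π * τ.im) := by
  have h1 : IsZeroAtImInfty g := h0
  have := h1.exp_decay_atImInfty one_pos (periodic_of_vadd hg) hd h1.isBoundedAtImInfty
  simpa using this


theorem tendsto_exp_neg {a : ℝ} (ha : 0 < a) :
    Tendsto (fun τ : ℍ ↦ Real.exp (-(a * τ.im))) atImInfty (𝓝 0) := by
  refine Real.tendsto_exp_neg_atTop_nhds_zero.comp ?_
  have h3 : Tendsto (fun τ : ℍ ↦ τ.im) atImInfty atTop := tendsto_comap
  exact h3.const_mul_atTop ha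

/-- a periodic function of growth less than `exp (2 π y)` is bounded at infinity -/
theorem bdd_of_periodic {g : ℍ → ℂ} (hg : ∀ τ, g ((1 : ℝ) +ᵥ τ) = g τ) (hd : MDiff g)
    {e : ℝ} (he : e < 1) (hb : g =O[atImInfty] fun τ ↦ Real.exp (2 * π * e * τ.im)) :
    IsBoundedAtImInfty g := by
  have hq1 : (qe 1) =O[atImInfty] fun τ : ℍ ↦ Real.exp (-2 * π * τ.im) := by
    refine Asymptotics.IsBigO.of_norm_le fun τ ↦ ?_
    rw [norm_qe]
    simp
  have h1 : Tendsto (fun τ ↦ qe 1 τ * g τ) atImInfty (𝓝 0) := by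
    refine (hq1.mul hb).trans_tendsto ?_
    have h2 : (fun τ : ℍ ↦ Real.exp (-2 * π * τ.im) * Real.exp (2 * π * e * τ.im)) =
        fun τ : ℍ ↦ Real.exp (-((2 * π * (1 - e)) * τ.im)) := by
      ext τ
      rw [← Real.exp_add]
      congr 1
      ring
    rw [h2]
    exact tendsto_exp_neg (mul_pos (mul_pos two_pos Real.pi_pos) (by linarith))
  have h2 := isBigO_of_tendsto_zero (g := fun τ ↦ qe 1 τ * g τ)
    (fun τ ↦ by
      rw [qe_vadd, hg]
      have : Complex.exp (2 * π * Complex.I * ((1 : ℝ) : ℂ)) = 1 := by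
        simp
      rw [this, one_mul]) ((mdiff_qe 1).mul hd) h1
  have hq2 : (qe (-1)) =O[atImInfty] fun τ : ℍ ↦ Real.exp (2 * π * τ.im) := by
    refine Asymptotics.IsBigO.of_norm_le fun τ ↦ ?_
    rw [norm_qe]
    simp
  have h3 := hq2.mul h2
  have h4 : (fun τ : ℍ ↦ Real.exp (2 * π * τ.im) * Real.exp (-2 * π * τ.im)) = 1 := by
    ext τ
    rw [← Real.exp_add]
    simp
  rw [h4] at h3
  refine h3.congr_left fun τ ↦ ?_
  rw [← mul_assoc, qe_neg_mul, one_mul]

theorem tendsto_of_periodic' {g : ℍ → ℂ} (hg : ∀ τ, g ((1 : ℝ) +ᵥ τ) = g τ) (hd : MDiff g)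
    {e : ℝ} (he : e < 1) (hb : g =O[atImInfty] fun τ ↦ Real.exp (2 * π * e * τ.im)) :
    Tendsto g atImInfty (𝓝 (valueAtInfty g)) :=
  tendsto_of_periodic one_pos (periodic_of_vadd hg) hd (bdd_of_periodic hg hd he hb)

/-! ### eigenbases for `T` -/

variable {X : Type} [MulAction SL(2, ℤ) X] [Fintype X] [DecidableEq X]

/-- a basis of `X → ℂ` (rows of `B`) consisting of eigenvectors for `T` -/
structure IsEigBasis (B : Matrix X X ℂ) (e : X → ℝ) : Prop where
  det_ne : B.det ≠ 0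
  nonneg : ∀ i, 0 ≤ e i
  lt_one : ∀ i, e i < 1
  eig : ∀ i x, B i (ModularGroup.T • x) = Complex.exp (2 * π * Complex.I * e i) * B i x

/-- components of an `X`-form in an eigenbasis, normalised to be periodic -/
noncomputable def comp (B : Matrix X X ℂ) (e : X → ℝ) (F : X → ℍ → ℂ) (i : X) (τ : ℍ) : ℂ :=
  qe (-e i) τ * ∑ x, B i x * F x τ

omit [Fintype X] [DecidableEq X] in
theorem IsXForm.vadd {k : ℤ} {F : X → ℍ → ℂ} (hF : IsXForm k F) (x : X) (τ : ℍ) :
    F x ((1 : ℝ) +ᵥ τ) = F (ModularGroup.T⁻¹ • x) τ := by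
  rw [← modular_T_smul, hF.apply_smul]
  have : (denom (ModularGroup.T : SL(2, ℤ)) τ : ℂ) = 1 := by
    rw [ModularGroup.denom_apply]
    simp [ModularGroup.coe_T]
  rw [this, one_zpow, one_mul]

omit [DecidableEq X] [MulAction SL(2, ℤ) X] in
theorem comp_smul (B : Matrix X X ℂ) (e : X → ℝ) (F : X → ℍ → ℂ) (i : X) (τ : ℍ) :
    qe (e i) τ * comp B e F i τ = ∑ x, B i x * F x τ := by
  rw [comp, ← mul_assoc, qe_mul_neg, one_mul]

variable {B : Matrix X X ℂ} {e : X → ℝ} {k : ℤ} {F : X → ℍ → ℂ}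

theorem comp_vadd (hB : IsEigBasis B e) (hF : IsXForm k F) (i : X) (τ : ℍ) :
    comp B e F i ((1 : ℝ) +ᵥ τ) = comp B e F i τ := by
  rw [comp, comp, qe_vadd]
  have h1 : ∑ x, B i x * F x ((1 : ℝ) +ᵥ τ) =
      Complex.exp (2 * π * Complex.I * e i) * ∑ x, B i x * F x τ := by
    rw [← Equiv.sum_comp (MulAction.toPerm (ModularGroup.T : SL(2, ℤ)) : Equiv.Perm X)
      (fun x ↦ B i x * F x ((1 : ℝ) +ᵥ τ)), Finset.mul_sum]
    refine Finset.sum_congr rfl fun x _ ↦ ?_
    rw [MulAction.toPerm_apply, hF.vadd, inv_smul_smul, hB.eig, mul_assoc]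
  rw [h1]
  have h2 : Complex.exp (2 * π * Complex.I * ((-e i : ℝ) : ℂ)) *
      Complex.exp (2 * π * Complex.I * e i) = 1 := by
    rw [← Complex.exp_add]
    simp
  linear_combination (qe (-e i) τ * ∑ x, B i x * F x τ) * h2

omit [DecidableEq X] in
theorem mdiff_comp (hF : IsXForm k F) (i : X) : MDiff (comp B e F i) := by
  have : comp B e F i = qe (-e i) * ∑ x, (Function.const ℍ (B i x)) * F x := by
    ext τ
    simp [comp]
  rw [this]
  exact (mdiff_qe _).mul (MDifferentiable.sum fun x _ ↦ mdifferentiable_const.mul (hF.mdiff x))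

theorem tendsto_comp (hB : IsEigBasis B e) (hF : IsXForm k F) (i : X) :
    Tendsto (comp B e F i) atImInfty (𝓝 (valueAtInfty (comp B e F i))) := by
  refine tendsto_of_periodic' (comp_vadd hB hF i) (mdiff_comp hF i) (hB.lt_one i) ?_
  have h1 : (fun τ ↦ ∑ x, B i x * F x τ) =O[atImInfty] fun _ : ℍ ↦ (1 : ℝ) := by
    refine Asymptotics.IsBigO.fun_sum fun x _ ↦ ?_
    have := (hF.bdd x)
    exact Asymptotics.IsBigO.const_mul_left this _
  have h2 : (qe (-e i)) =O[atImInfty] fun τ : ℍ ↦ Real.exp (2 * π * e i * τ.im) := by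
    refine Asymptotics.IsBigO.of_norm_le fun τ ↦ ?_
    rw [norm_qe]
    simp
  have h3 := h2.mul h1
  simp only [mul_one] at h3
  exact h3

/-! ### the leading matrix -/

/-- matrix of the values at infinity of the components in an eigenbasis -/
noncomputable def leadMat (B : Matrix X X ℂ) (e : X → ℝ) (f : X → X → ℍ → ℂ) : Matrix X X ℂ :=
  Matrix.of fun i j ↦ valueAtInfty (comp B e (f j) i)

theorem IsMinTuple.det_leadMat_ne_zero {k : X → ℤ} {f : X → X → ℍ → ℂ} (hf : IsMinTuple k f)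
    (hneg : ∀ x : X, (-1 : SL(2, ℤ)) • x = x) (hB : IsEigBasis B e) :
    (leadMat B e f).det ≠ 0 := by
  intro h0
  obtain ⟨c, hc0, hMc⟩ := Matrix.exists_mulVec_eq_zero_iff.mpr h0
  obtain ⟨j₁, hj₁⟩ := Function.ne_iff.mp hc0
  obtain ⟨j₀, hj₀, hmax⟩ := Finset.exists_max_image (Finset.univ.filter fun j ↦ c j ≠ 0) k
    ⟨j₁, by simpa using hj₁⟩
  replace hj₀ : c j₀ ≠ 0 := by simpa using hj₀
  -- multipliers
  have hm : ∀ j, ∃ m, IsLevelOne (k j₀ + 4 - k j) m ∧ Tendsto m atImInfty (𝓝 (c j)) := by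
    intro j
    by_cases hj : c j = 0
    · exact ⟨0, isLevelOne_zero _, by rw [hj]; exact tendsto_const_nhds⟩
    · have h1 := hmax j (by simpa using hj)
      obtain ⟨a, ha⟩ := hf.even hneg j₀
      obtain ⟨b, hb⟩ := hf.even hneg j
      obtain ⟨l, hl⟩ : ∃ l : ℕ, (l : ℤ) = a - b + 2 := ⟨(a - b + 2).toNat, by
        rw [Int.toNat_of_nonneg]; omega⟩
      refine ⟨c j • mon l, ((isLevelOne_mon (by omega)).congr_weight (by omega)).smul _, ?_⟩
      have h5 := (tendsto_mon l).const_mul (c j)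
      rw [mul_one] at h5
      exact h5
  choose m hm hmt using hm
  -- the form `P`
  let P : X → ℍ → ℂ := fun x ↦ ∑ j, m j * f j x
  have hP : IsXForm (k j₀ + 4) P := by
    have h2 := IsXForm.sum (k := k j₀ + 4) (Finset.univ : Finset X) (F := fun j x ↦ m j * f j x)
      (fun j _ ↦ ((hf.form j).levelOne_mul (hm j)).congr_weight (by ring))
    convert h2 using 1
    ext x
    simp [P]
  have hcomp : ∀ i, comp B e P i = fun τ ↦ ∑ j, m j τ * comp B e (f j) i τ := by
    intro i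
    ext τ
    simp only [comp, P, Finset.sum_apply, Pi.mul_apply, Finset.mul_sum]
    rw [Finset.sum_comm]
    refine Finset.sum_congr rfl fun j _ ↦ Finset.sum_congr rfl fun x _ ↦ ?_
    ring
  have hPt : ∀ i, Tendsto (comp B e P i) atImInfty (𝓝 0) := by
    intro i
    have h1 : Tendsto (fun τ ↦ ∑ j, m j τ * comp B e (f j) i τ) atImInfty
        (𝓝 (∑ j, c j * valueAtInfty (comp B e (f j) i))) :=
      tendsto_finsetSum _ fun j _ ↦ (hmt j).mul (tendsto_comp hB (hf.form j) i)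
    have h2 : ∑ j, c j * valueAtInfty (comp B e (f j) i) = 0 := by
      have := congrFun hMc i
      rw [Matrix.mulVec, dotProduct] at this
      rw [Pi.zero_apply] at this
      rw [← this]
      exact Finset.sum_congr rfl fun j _ ↦ mul_comm _ _
    rw [h2, ← hcomp] at h1
    exact h1
  have hPO : ∀ i, comp B e P i =O[atImInfty] fun τ : ℍ ↦ Real.exp (-2 * π * τ.im) :=
    fun i ↦ isBigO_of_tendsto_zero (comp_vadd hB hP i) (mdiff_comp hP i) (hPt i)
  have hPx : ∀ x, P x =O[atImInfty] fun τ : ℍ ↦ Real.exp (-2 * π * τ.im) := by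
    intro x
    have h1 : P x = fun τ ↦ ∑ i, B⁻¹ x i * (qe (e i) τ * comp B e P i τ) := by
      ext τ
      simp_rw [comp_smul]
      have h2 : B⁻¹ * B = 1 := Matrix.nonsing_inv_mul B (isUnit_iff_ne_zero.mpr hB.det_ne)
      have h3 : (B⁻¹.mulVec (B.mulVec fun x ↦ P x τ)) x = P x τ := by
        rw [Matrix.mulVec_mulVec, h2, Matrix.one_mulVec]
      rw [← h3]
      rfl
    rw [h1]
    refine Asymptotics.IsBigO.fun_sum fun i _ ↦ Asymptotics.IsBigO.const_mul_left ?_ _
    have h2 : (qe (e i)) =O[atImInfty] fun _ : ℍ ↦ (1 : ℝ) := by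
      refine Asymptotics.IsBigO.of_norm_le fun τ ↦ ?_
      rw [norm_qe]
      refine Real.exp_le_one_iff.mpr ?_
      have := hB.nonneg i
      have := τ.im_pos
      have := Real.pi_pos
      have h3 : 0 ≤ 2 * π * e i * τ.im := by positivity
      linarith
    simpa using h2.mul (hPO i)
  obtain ⟨G, hG, hPG⟩ := hP.exists_div_Δ hPx
  have h1 := hf.le_of_relation hG (p := discriminant) (m := m) (fun x τ ↦ by
    have := congrFun (hPG x) τ
    simpa [P] using this) j₀ (hm j₀).mdiff (fun h ↦ by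
      have h2 := hmt j₀
      rw [h] at h2
      exact hj₀ (tendsto_nhds_unique h2 tendsto_const_nhds))
  omega

/-! ### the complementary eigenbasis -/

theorem IsEigBasis.conj (hB : IsEigBasis B e) :
    IsEigBasis (B.map (starRingEnd ℂ)) (fun i ↦ if e i = 0 then 0 else 1 - e i) where
  det_ne := by
    have h1 : (B.map (starRingEnd ℂ)).det = starRingEnd ℂ B.det :=
      ((starRingEnd ℂ).map_det B).symm
    rw [h1]
    simpa using hB.det_ne
  nonneg i := by
    have := hB.lt_one i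
    split_ifs <;> linarith
  lt_one i := by
    have := hB.nonneg i
    split_ifs with h
    · exact one_pos
    · have : 0 < e i := lt_of_le_of_ne this (Ne.symm h)
      linarith
  eig i x := by
    rw [Matrix.map_apply, Matrix.map_apply, hB.eig, map_mul]
    congr 1
    rw [← Complex.exp_conj]
    split_ifs with h
    · simp [h]
    · have h1 : (starRingEnd ℂ) (2 * π * Complex.I * (e i)) + 2 * π * Complex.I =
          2 * π * Complex.I * ((1 - e i : ℝ) : ℂ) := by
        simp only [map_mul, Complex.conj_I, Complex.conj_ofReal]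
        have : (starRingEnd ℂ) (2 : ℂ) = 2 := Complex.conj_ofNat 2
        rw [this]
        push_cast
        ring
      rw [← h1, Complex.exp_add, Complex.exp_two_pi_mul_I, mul_one]

omit [MulAction SL(2, ℤ) X] in
theorem det_mul_det_mat (f : X → X → ℍ → ℂ) (τ : ℍ) (B : Matrix X X ℂ) (e : X → ℝ) :
    B.det * (mat f τ).det =
      qe (∑ i, e i) τ * (Matrix.of fun i j ↦ comp B e (f j) i τ).det := by
  have h1 : B * mat f τ = Matrix.diagonal (fun i ↦ qe (e i) τ) *
      Matrix.of fun i j ↦ comp B e (f j) i τ := by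
    ext i j
    rw [Matrix.diagonal_mul, Matrix.mul_apply, Matrix.of_apply, comp_smul]
    rfl
  rw [← Matrix.det_mul, h1, Matrix.det_mul, Matrix.det_diagonal, qe_sum]

theorem tendsto_det_comp {k : X → ℤ} {f : X → X → ℍ → ℂ} (hB : IsEigBasis B e)
    (hf : ∀ j, IsXForm (k j) (f j)) :
    Tendsto (fun τ ↦ (Matrix.of fun i j ↦ comp B e (f j) i τ).det) atImInfty
      (𝓝 (leadMat B e f).det) := by
  simp_rw [Matrix.det_apply', leadMat, Matrix.of_apply]
  exact tendsto_finsetSum _ fun σ _ ↦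
    (tendsto_finsetProd _ fun i _ ↦ tendsto_comp hB (hf i) (σ i)).const_mul _

/-! ### quotients of level one forms -/

theorem isLevelOne_div {a b : ℤ} {p q : ℍ → ℂ} (hp : IsLevelOne a p) (hq : IsLevelOne b q)
    (hq0 : ∀ τ, q τ ≠ 0) (hO : p =O[atImInfty] q) : IsLevelOne (a - b) (p / q) where
  mdiff := hp.mdiff.div hq.mdiff hq0
  bdd := (Asymptotics.div_isBoundedUnder_of_isBigO hO).isBigO_one ℝ
  slash γ := by
    have h1 : q * (p / q) = p := by
      ext τ
      simp only [Pi.mul_apply, Pi.div_apply]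
      field_simp [hq0 τ]
    have h2 : p ∣[a] γ = q * ((p / q) ∣[a - b] γ) := by
      conv_lhs => rw [← h1, show a = b + (a - b) by ring]
      rw [mul_slash_SL2, hq.slash]
    ext τ
    have h3 := congrFun h2 τ
    rw [hp.slash] at h3
    simp only [Pi.mul_apply, Pi.div_apply] at h3 ⊢
    rw [h3]
    field_simp [hq0 τ]

theorem weight_le_of_isBigO {a b : ℤ} {p q : ℍ → ℂ} (hp : IsLevelOne a p) (hq : IsLevelOne b q)
    (hp0 : ∀ τ, p τ ≠ 0) (hq0 : ∀ τ, q τ ≠ 0) (hO : p =O[atImInfty] q) : b ≤ a := by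
  by_contra h
  have h1 := (isLevelOne_div hp hq hq0 hO).eq_zero_of_neg (by omega)
  have h2 := congrFun h1 I
  simp only [Pi.div_apply, Pi.zero_apply, div_eq_zero_iff] at h2
  exact h2.elim (hp0 I) (hq0 I)

/-- the square of the determinant is a level one form -/
theorem isLevelOne_det_sq {k : X → ℤ} {f : X → X → ℍ → ℂ} (hf : ∀ j, IsXForm (k j) (f j)) :
    IsLevelOne (2 * ∑ j, k j) (fun τ ↦ (mat f τ).det ^ 2) where
  mdiff := by
    have h := mdiff_det fun j x ↦ (hf j).mdiff x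
    have h2 : (fun τ ↦ (mat f τ).det ^ 2) =
        (fun τ ↦ (mat f τ).det) * (fun τ ↦ (mat f τ).det) := by
      ext τ
      simp [sq]
    rw [h2]
    exact h.mul h
  bdd := by
    have h1 : (fun τ ↦ (mat f τ).det) =O[atImInfty] fun _ ↦ (1 : ℝ) := by
      simp_rw [Matrix.det_apply']
      refine Asymptotics.IsBigO.fun_sum fun σ _ ↦ Asymptotics.IsBigO.const_mul_left ?_ _
      have h2 := Asymptotics.IsBigO.finsetProd (s := Finset.univ) (f := fun i τ ↦ f i (σ i) τ)
        (g := fun _ _ ↦ (1 : ℝ)) (l := atImInfty) (fun i _ ↦ (hf i).bdd (σ i))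
      simpa using h2
    have h2 := h1.pow 2
    simpa [IsBoundedAtImInfty, BoundedAtFilter, Pi.one_def] using h2
  slash γ := by
    ext τ
    have hd : (denom γ τ : ℂ) ≠ 0 := denom_ne_zero _ τ
    rw [SL_slash_apply]
    have hs : ((Equiv.Perm.sign (MulAction.toPerm γ⁻¹ : Equiv.Perm X) : ℤ) : ℂ) ^ 2 = 1 := by
      have := Int.units_sq (Equiv.Perm.sign (MulAction.toPerm γ⁻¹ : Equiv.Perm X))
      have h5 : (Equiv.Perm.sign (MulAction.toPerm γ⁻¹ : Equiv.Perm X) : ℤ) ^ 2 = 1 := by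
        rw [← Units.val_pow_eq_pow_val, this, Units.val_one]
      rw [← Int.cast_pow, h5, Int.cast_one]
    rw [det_mat_smul hf, mul_pow, mul_pow, hs, one_mul, ← zpow_natCast, ← zpow_mul]
    have h3 : (denom γ τ : ℂ) ^ ((∑ j, k j) * ((2 : ℕ) : ℤ)) * denom γ τ ^ (-(2 * ∑ j, k j)) = 1 := by
      rw [← zpow_add₀ hd]
      have : (∑ j, k j) * ((2 : ℕ) : ℤ) + -(2 * ∑ j, k j) = 0 := by push_cast; ring
      rw [this, zpow_zero]
    linear_combination (mat f τ).det ^ 2 * h3

theorem two_mul_sum_weights {k : X → ℤ} {f : X → X → ℍ → ℂ} (hf : IsMinTuple k f)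
    (hneg : ∀ x : X, (-1 : SL(2, ℤ)) • x = x) (hB : IsEigBasis B e) (N : ℕ)
    (hN : (Finset.univ.filter fun i ↦ e i ≠ 0).card = N) :
    2 * ∑ j, k j = 12 * N := by
  set D : ℍ → ℂ := fun τ ↦ (mat f τ).det ^ 2 with hD
  set C : ℍ → ℂ := fun τ ↦ (Matrix.of fun i j ↦ comp B e (f j) i τ).det with hC
  set B' : Matrix X X ℂ := B.map (starRingEnd ℂ) with hB'
  set e' : X → ℝ := fun i ↦ if e i = 0 then 0 else 1 - e i with he'
  have hBc : IsEigBasis B' e' := hB.conj
  set C' : ℍ → ℂ := fun τ ↦ (Matrix.of fun i j ↦ comp B' e' (f j) i τ).det with hC'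
  have hsum : ∑ i, e i + ∑ i, e' i = N := by
    rw [← Finset.sum_add_distrib, ← hN, Finset.card_filter]
    push_cast
    refine Finset.sum_congr rfl fun i _ ↦ ?_
    by_cases h : e i = 0 <;> simp [he', h]
  have key : ∀ τ, (B.det * B'.det) * D τ = qe N τ * (C τ * C' τ) := by
    intro τ
    have h1 := det_mul_det_mat f τ B e
    have h2 := det_mul_det_mat f τ B' e'
    have h3 : qe (N : ℝ) τ = qe (∑ i, e i) τ * qe (∑ i, e' i) τ := by rw [← hsum, qe_add]
    rw [h3]
    simp only [hD, hC, hC']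
    calc _ = (B.det * (mat f τ).det) * (B'.det * (mat f τ).det) := by ring
      _ = _ := by rw [h1, h2]; ring
  have hlim : Tendsto (fun τ ↦ C τ * C' τ) atImInfty
      (𝓝 ((leadMat B e f).det * (leadMat B' e' f).det)) :=
    (tendsto_det_comp hB hf.form).mul (tendsto_det_comp hBc hf.form)
  have hlim0 : (leadMat B e f).det * (leadMat B' e' f).det ≠ 0 :=
    mul_ne_zero (hf.det_leadMat_ne_zero hneg hB) (hf.det_leadMat_ne_zero hneg hBc)
  have hBB : B.det * B'.det ≠ 0 := mul_ne_zero hB.det_ne hBc.det_ne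
  -- comparison with `Δ ^ N`
  have hΔ1 : (fun τ : ℍ ↦ Real.exp (-2 * π * τ.im)) =O[atImInfty] discriminant :=
    exp_isBigO_discriminant
  have hΔ2 : discriminant =O[atImInfty] fun τ : ℍ ↦ Real.exp (-2 * π * τ.im) := by
    refine isBigO_of_tendsto_zero (fun τ ↦ ?_) isLevelOne_Δ.mdiff tendsto_Δ
    rw [← slash_T_apply 12 discriminant, isLevelOne_Δ.slash]
  have hq : ∀ τ : ℍ, Real.exp (-2 * π * τ.im) ^ N = ‖qe (N : ℝ) τ‖ := by
    intro τ
    rw [norm_qe, ← Real.exp_nat_mul]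
    congr 1
    ring
  have hO1 : D =O[atImInfty] (discriminant ^ N : ℍ → ℂ) := by
    have h1 : D = fun τ ↦ (B.det * B'.det)⁻¹ * (qe N τ * (C τ * C' τ)) := by
      ext τ
      rw [← key, ← mul_assoc, inv_mul_cancel₀ hBB, one_mul]
    have h2 : (qe (N : ℝ)) =O[atImInfty] (discriminant ^ N : ℍ → ℂ) := by
      have h3 := hΔ1.pow N
      simp_rw [hq] at h3
      exact h3.of_norm_left
    rw [h1]
    refine Asymptotics.IsBigO.const_mul_left ?_ _
    have h4 := h2.mul (hlim.isBigO_one ℂ)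
    simp only [mul_one] at h4
    exact h4
  have hO2 : (discriminant ^ N : ℍ → ℂ) =O[atImInfty] D := by
    have h2 : (discriminant ^ N : ℍ → ℂ) =O[atImInfty] (qe (N : ℝ)) := by
      have h3 := hΔ2.pow N
      simp_rw [hq] at h3
      exact h3.of_norm_right
    have h3 : (qe (N : ℝ)) =O[atImInfty] D := by
      have h5 : (fun τ ↦ (C τ * C' τ)⁻¹) =O[atImInfty] fun _ : ℍ ↦ (1 : ℂ) :=
        (hlim.inv₀ hlim0).isBigO_one ℂ
      have h6 : qe (N : ℝ) =ᶠ[atImInfty]
          fun τ ↦ (B.det * B'.det) * (D τ * (C τ * C' τ)⁻¹) := by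
        filter_upwards [hlim.eventually_ne hlim0] with τ hτ
        rw [← mul_assoc, key, mul_assoc, mul_inv_cancel₀ hτ, mul_one]
      refine h6.isBigO.trans (Asymptotics.IsBigO.const_mul_left ?_ _)
      have h7 := (Asymptotics.isBigO_refl D atImInfty).mul h5
      simpa using h7
    exact h2.trans h3
  have hDl : IsLevelOne (2 * ∑ j, k j) D := isLevelOne_det_sq hf.form
  have hΔl : IsLevelOne (N * 12) (discriminant ^ N : ℍ → ℂ) := isLevelOne_Δ.pow N
  have hD0 : ∀ τ, D τ ≠ 0 := fun τ ↦ pow_ne_zero _ (hf.det_ne_zero hneg τ)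
  have hΔ0 : ∀ τ, (discriminant ^ N : ℍ → ℂ) τ ≠ 0 := fun τ ↦ pow_ne_zero _ (discriminant_ne_zero τ)
  have h1 := weight_le_of_isBigO hDl hΔl hD0 hΔ0 hO1
  have h2 := weight_le_of_isBigO hΔl hDl hΔ0 hD0 hO2
  omega

end Fermat.Agent.GenusLB
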