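import Fermat.Agent.GenusLB.XForm
import Fermat.Agent.LevelOne.Division

/-!
# Division of `X`-forms by primitive level one forms
-/

set_option autoImplicit false

open UpperHalfPlane ModularForm ModularFormClass MatrixGroups EisensteinSeries Filter
open scoped Manifold MatrixGroups ModularForm Topology

namespace Fermat.Agent.GenusLB

open Fermat.Agent.LevelOne

variable {X : Type} [MulAction SL(2, ℤ) X] {k l w : ℤ} {F G : X → ℍ → ℂ}

theorem IsXForm.apply_smul (hF : IsXForm k F) (γ : SL(2, ℤ)) (x : X) (τ : ℍ) :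
    F x (γ • τ) = denom γ τ ^ k * F (γ⁻¹ • x) τ := by
  have h := congrFun (hF.slash γ x) τ
  rw [SL_slash_apply] at h
  rw [← h, mul_comm, mul_assoc, ← zpow_add₀ (denom_ne_zero _ τ), neg_add_cancel, zpow_zero,
    mul_one]

/-- cancellation of a nonzero factor in the transformation law. -/
theorem isXForm_of_mul {p : ℍ → ℂ} (hp : ∀ γ : SL(2, ℤ), p ∣[w] γ = p) (hpd : MDiff p)
    (hp0 : p ≠ 0) (hF : IsXForm k F) (hG : ∀ x, MDiff (G x))
    (hGb : ∀ x, IsBoundedAtImInfty (G x)) (h : ∀ x, F x = p * G x) : IsXForm (k - w) G where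
  mdiff := hG
  bdd := hGb
  slash γ x := by
    have h1 : p * (G x ∣[k - w] γ) = p * G (γ⁻¹ • x) := by
      rw [← h, ← hF.slash γ x, h x]
      conv_lhs => rw [← hp γ]
      rw [← mul_slash_SL2]
      congr 1
      ring
    have h2 : p * (G x ∣[k - w] γ - G (γ⁻¹ • x)) = 0 := by rw [mul_sub, h1, sub_self]
    have hm : MDiff (G x ∣[k - w] γ) := (hG x).slash (k - w) (γ : GL (Fin 2) ℝ)
    have h3 := (UpperHalfPlane.mul_eq_zero_iff hpd (hm.sub (hG (γ⁻¹ • x)))).mp h2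
    exact sub_eq_zero.mp (h3.resolve_left hp0)

theorem ne_zero_of_tendsto_one {p : ℍ → ℂ} (h : Tendsto p atImInfty (𝓝 1)) : p ≠ 0 := by
  rintro rfl
  exact zero_ne_one (tendsto_nhds_unique tendsto_const_nhds h)

theorem IsXForm.exists_div {p : ℍ → ℂ} {τ₀ : ℍ} (hp : IsPrimitiveAt w p τ₀) (hF : IsXForm k F)
    (h0 : ∀ x, F x τ₀ = 0) : ∃ G : X → ℍ → ℂ, IsXForm (k - w) G ∧ ∀ x, F x = p * G x := by
  have h1 : ∀ x, ∃ q : ℍ → ℂ, MDiff q ∧ F x = p * q := by
    intro x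
    refine exists_mul_eq hp.levelOne.mdiff (hF.mdiff x) fun z hz ↦ ⟨?_, hp.simple z hz⟩
    obtain ⟨γ, rfl⟩ := hp.orbit z hz
    rw [hF.apply_smul, h0, mul_zero]
  choose G hG hFG using h1
  refine ⟨G, isXForm_of_mul hp.levelOne.slash hp.levelOne.mdiff (ne_zero_of_tendsto_one hp.tendsto)
    hF hG (fun x ↦ ?_) hFG, hFG⟩
  -- boundedness
  have h2 : Tendsto (fun τ ↦ (p τ)⁻¹) atImInfty (𝓝 1) := by
    simpa using hp.tendsto.inv₀ one_ne_zero
  have h3 : G x =ᶠ[atImInfty] fun τ ↦ (p τ)⁻¹ * F x τ := by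
    filter_upwards [hp.tendsto.eventually_ne one_ne_zero] with τ hτ
    rw [hFG x]
    simp only [Pi.mul_apply]
    field_simp
  have h4 := ((h2.isBigO_one ℝ).mul (hF.bdd x)).congr' h3.symm EventuallyEq.rfl
  simpa [IsBoundedAtImInfty, BoundedAtFilter, Pi.one_def] using h4

/-- division by `Δ` at the cusp -/
theorem IsXForm.exists_div_Δ (hF : IsXForm k F)
    (h0 : ∀ x, F x =O[atImInfty] fun τ : ℍ ↦ Real.exp (-2 * Real.pi * τ.im)) :
    ∃ G : X → ℍ → ℂ, IsXForm (k - 12) G ∧ ∀ x, F x = discriminant * G x := by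
  have hΔ : ∀ τ, discriminant τ ≠ 0 := discriminant_ne_zero
  have hΔ0 : (discriminant : ℍ → ℂ) ≠ 0 := fun h ↦ hΔ I (congrFun h I)
  refine ⟨fun x ↦ F x / discriminant, isXForm_of_mul isLevelOne_Δ.slash isLevelOne_Δ.mdiff hΔ0 hF
    (fun x ↦ (hF.mdiff x).div isLevelOne_Δ.mdiff hΔ) (fun x ↦ ?_) ?_, ?_⟩
  · have h1 : F x =O[atImInfty] discriminant := (h0 x).trans exp_isBigO_discriminant
    exact (Asymptotics.div_isBoundedUnder_of_isBigO h1).isBigO_one ℝ
  · intro x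
    ext τ
    simp only [Pi.mul_apply, Pi.div_apply]
    field_simp [hΔ τ]
  · intro x
    ext τ
    simp only [Pi.mul_apply, Pi.div_apply]
    field_simp [hΔ τ]

end Fermat.Agent.GenusLB
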