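import Fermat.Agent.GenusLB.Minimal

/-!
# Minimal tuples have nonvanishing determinant on the upper half plane
-/

set_option autoImplicit false

open UpperHalfPlane ModularForm ModularFormClass MatrixGroups EisensteinSeries Filter
open scoped Manifold MatrixGroups ModularForm Topology

namespace Fermat.Agent.GenusLB

open Fermat.Agent.LevelOne

/-! ### elliptic points -/

/-- the elliptic point of order three -/
noncomputable def ω : ℍ := ⟨⟨-1 / 2, √3 / 2⟩, by simp⟩

theorem coe_ω : (ω : ℂ) = ⟨-1 / 2, √3 / 2⟩ := rfl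

theorem ω_relation : (ω : ℂ) ^ 2 + ω + 1 = 0 := by
  have h3 : √3 * √3 = 3 := Real.mul_self_sqrt (by norm_num)
  rw [coe_ω, sq]
  apply Complex.ext
  · simp; linarith
  · simp; ring

theorem ω_ne_real (r : ℝ) : (ω : ℂ) ≠ r := by
  intro h
  have := congrArg Complex.im h
  simp [coe_ω] at this

theorem ST_00 : (ModularGroup.S * ModularGroup.T : SL(2, ℤ)) 0 0 = 0 := by
  simp [Matrix.SpecialLinearGroup.coe_mul, ModularGroup.coe_S, ModularGroup.coe_T]
theorem ST_01 : (ModularGroup.S * ModularGroup.T : SL(2, ℤ)) 0 1 = -1 := by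
  simp [Matrix.SpecialLinearGroup.coe_mul, ModularGroup.coe_S, ModularGroup.coe_T]
theorem ST_10 : (ModularGroup.S * ModularGroup.T : SL(2, ℤ)) 1 0 = 1 := by
  simp [Matrix.SpecialLinearGroup.coe_mul, ModularGroup.coe_S, ModularGroup.coe_T]
theorem ST_11 : (ModularGroup.S * ModularGroup.T : SL(2, ℤ)) 1 1 = 1 := by
  simp [Matrix.SpecialLinearGroup.coe_mul, ModularGroup.coe_S, ModularGroup.coe_T]

theorem ST_smul_ω : (ModularGroup.S * ModularGroup.T) • ω = ω := by
  apply UpperHalfPlane.ext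
  rw [UpperHalfPlane.specialLinearGroup_apply]
  have h1 : (ω : ℂ) + 1 ≠ 0 := by
    intro h
    exact ω_ne_real (-1) (by push_cast; linear_combination h)
  simp only [ST_00, ST_01, ST_10, ST_11]
  have h2 : ((algebraMap ℤ ℝ 1 : ℝ) : ℂ) * ω + ((algebraMap ℤ ℝ 1 : ℝ) : ℂ) = ω + 1 := by simp
  rw [h2, div_eq_iff h1]
  simp
  linear_combination -ω_relation

theorem denom_ST_ω : denom (ModularGroup.S * ModularGroup.T : SL(2, ℤ)) ω = ω + 1 := by
  rw [ModularGroup.denom_apply, ST_10, ST_11]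
  simp

theorem zpow_ω_eq_one {m : ℤ} (h : ((ω : ℂ) + 1) ^ m = 1) : (6 : ℤ) ∣ m := by
  set d : ℂ := (ω : ℂ) + 1 with hd
  have h0 : d ≠ 0 := by
    intro h
    exact ω_ne_real (-1) (by push_cast; linear_combination h)
  have hω := ω_relation
  have d2 : d ^ 2 = ω := by rw [hd]; linear_combination hω
  have d3 : d ^ 3 = -1 := by rw [pow_succ, d2, hd]; linear_combination hω
  have d6 : d ^ 6 = 1 := by rw [show d ^ 6 = (d ^ 3) ^ 2 by ring, d3]; norm_num
  have h1 : d ^ (m % 6).toNat = 1 := by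
    have e : m = 6 * (m / 6) + ((m % 6).toNat : ℤ) := by
      rw [Int.toNat_of_nonneg (Int.emod_nonneg _ (by norm_num))]
      exact (Int.mul_ediv_add_emod m 6).symm
    rw [e, zpow_add₀ h0, zpow_mul, zpow_natCast] at h
    have : d ^ (6 : ℤ) = 1 := by exact_mod_cast d6
    rw [this, one_zpow, one_mul] at h
    exact h
  have h2 : (m % 6).toNat < 6 := by omega
  have h3 : (m % 6).toNat = 0 := by
    generalize (m % 6).toNat = t at h1 h2
    have nr := ω_ne_real
    interval_cases t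
    · rfl
    · exact absurd (show (ω : ℂ) = ((0 : ℝ) : ℂ) by push_cast; linear_combination h1) (nr 0)
    · rw [d2] at h1; exact absurd (show (ω : ℂ) = ((1 : ℝ) : ℂ) by simpa using h1) (nr 1)
    · rw [d3] at h1; norm_num at h1
    · rw [show d ^ 4 = d ^ 3 * d by ring, d3] at h1
      exact absurd (show (ω : ℂ) = ((-2 : ℝ) : ℂ) by push_cast; linear_combination -h1) (nr (-2))
    · rw [show d ^ 5 = d ^ 3 * d ^ 2 by ring, d3, d2] at h1
      exact absurd (show (ω : ℂ) = ((-1 : ℝ) : ℂ) by push_cast; linear_combination -h1) (nr (-1))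
  omega

theorem zpow_I_eq_one {m : ℤ} (h : Complex.I ^ m = 1) : (4 : ℤ) ∣ m := by
  have h1 : Complex.I ^ (m % 4).toNat = 1 := by
    have e : m = 4 * (m / 4) + ((m % 4).toNat : ℤ) := by
      rw [Int.toNat_of_nonneg (Int.emod_nonneg _ (by norm_num))]
      exact (Int.mul_ediv_add_emod m 4).symm
    rw [e, zpow_add₀ Complex.I_ne_zero, zpow_mul, zpow_natCast] at h
    have : Complex.I ^ (4 : ℤ) = 1 := by exact_mod_cast Complex.I_pow_four
    rw [this, one_zpow, one_mul] at h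
    exact h
  have h2 : (m % 4).toNat < 4 := by omega
  have h3 : (m % 4).toNat = 0 := by
    generalize (m % 4).toNat = t at h1 h2
    interval_cases t
    · rfl
    · have := congrArg Complex.im h1
      simp at this
    · rw [Complex.I_sq] at h1; norm_num at h1
    · rw [Complex.I_pow_three] at h1
      have := congrArg Complex.im h1
      simp at this
  omega

theorem IsLevelOne.apply_smul {k : ℤ} {f : ℍ → ℂ} (hf : IsLevelOne k f) (γ : SL(2, ℤ)) (τ : ℍ) :
    f (γ • τ) = denom γ τ ^ k * f τ := by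
  have h := congrFun (hf.slash γ) τ
  rw [SL_slash_apply] at h
  rw [← h, mul_comm (f (γ • τ)), ← mul_assoc, ← zpow_add₀ (denom_ne_zero _ τ), add_neg_cancel,
    zpow_zero, one_mul]

theorem E₄_ω : E₄ ω = 0 := by
  have h := IsLevelOne.apply_smul isLevelOne_E₄ (ModularGroup.S * ModularGroup.T) ω
  rw [ST_smul_ω, denom_ST_ω] at h
  by_contra h0
  have : ((ω : ℂ) + 1) ^ (4 : ℤ) = 1 := by
    have h1 : (((ω : ℂ) + 1) ^ (4 : ℤ) - 1) * E₄ ω = 0 := by linear_combination -h
    exact sub_eq_zero.mp ((mul_eq_zero.mp h1).resolve_right h0)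
  have := zpow_ω_eq_one this
  norm_num at this

theorem S_smul_I : ModularGroup.S • (I : ℍ) = I := by
  apply UpperHalfPlane.ext
  rw [UpperHalfPlane.specialLinearGroup_apply]
  simp [ModularGroup.S]

theorem E₆_I : E₆ I = 0 := by
  have h := IsLevelOne.apply_smul isLevelOne_E₆ ModularGroup.S I
  rw [S_smul_I, ModularGroup.denom_S] at h
  by_contra h0
  have : Complex.I ^ (6 : ℤ) = 1 := by
    have h1 : (Complex.I ^ (6 : ℤ) - 1) * E₆ I = 0 := by
      have : ((I : ℍ) : ℂ) = Complex.I := rfl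
      rw [this] at h
      linear_combination -h
    exact sub_eq_zero.mp ((mul_eq_zero.mp h1).resolve_right h0)
  have := zpow_I_eq_one this
  norm_num at this


/-! ### transformation of the determinant -/

variable {X : Type} [MulAction SL(2, ℤ) X] [Fintype X] [DecidableEq X]

theorem det_mat_smul {k : X → ℤ} {f : X → X → ℍ → ℂ} (hf : ∀ j, IsXForm (k j) (f j))
    (γ : SL(2, ℤ)) (τ : ℍ) : (mat f (γ • τ)).det =
      ((Equiv.Perm.sign (MulAction.toPerm γ⁻¹ : Equiv.Perm X) : ℤ) : ℂ) *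
        denom γ τ ^ (∑ j, k j) * (mat f τ).det := by
  have h1 : mat f (γ • τ) = ((mat f τ).submatrix (MulAction.toPerm γ⁻¹ : Equiv.Perm X) id) *
      Matrix.diagonal (fun j ↦ denom γ τ ^ k j) := by
    ext x j
    rw [Matrix.mul_diagonal, Matrix.submatrix_apply, mat_apply, mat_apply, (hf j).apply_smul,
      mul_comm]
    rfl
  rw [h1, Matrix.det_mul, Matrix.det_diagonal, Matrix.det_permute]
  have h2 : ∏ j, denom γ τ ^ k j = denom γ τ ^ (∑ j, k j) := by
    have hd : (denom γ τ : ℂ) ≠ 0 := denom_ne_zero _ τ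
    induction (Finset.univ : Finset X) using Finset.induction_on with
    | empty => simp
    | insert a s ha ih => rw [Finset.prod_insert ha, Finset.sum_insert ha, zpow_add₀ hd, ih]
  rw [h2]
  ring

theorem det_mat_smul_ne_zero_iff {k : X → ℤ} {f : X → X → ℍ → ℂ} (hf : ∀ j, IsXForm (k j) (f j))
    (γ : SL(2, ℤ)) (τ : ℍ) : (mat f (γ • τ)).det ≠ 0 ↔ (mat f τ).det ≠ 0 := by
  have hd : (denom γ τ : ℂ) ≠ 0 := denom_ne_zero _ τ
  have hs : ((Equiv.Perm.sign (MulAction.toPerm γ⁻¹ : Equiv.Perm X) : ℤ) : ℂ) ≠ 0 := by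
    exact_mod_cast (Equiv.Perm.sign _).ne_zero
  rw [det_mat_smul hf]
  simp [hs, zpow_ne_zero _ hd]

/-! ### relations of minimal support -/

/-- if the determinant vanishes at `τ₀` there is a relation of minimal support; on its support
the weights `k j` all give the same value of the automorphy factor of the stabiliser. -/
theorem exists_minimal_relation {k : X → ℤ} {f : X → X → ℍ → ℂ} (hf : ∀ j, IsXForm (k j) (f j))
    {τ₀ : ℍ} (h0 : (mat f τ₀).det = 0) :
    ∃ c : X → ℂ, (∀ x, ∑ j, c j * f j x τ₀ = 0) ∧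
      (∀ g : SL(2, ℤ), g • τ₀ = τ₀ → ∀ j j', c j ≠ 0 → c j' ≠ 0 →
        denom g τ₀ ^ k j = denom g τ₀ ^ k j') ∧
      ∃ j₀, c j₀ ≠ 0 ∧ ∀ j, c j ≠ 0 → k j ≤ k j₀ := by
  classical
  obtain ⟨v, hv, hMv⟩ := Matrix.exists_mulVec_eq_zero_iff.mpr h0
  let R : Set (X → ℂ) := {c | c ≠ 0 ∧ ∀ x, ∑ j, c j * f j x τ₀ = 0}
  let size : (X → ℂ) → ℕ := fun c ↦ (Finset.univ.filter fun j ↦ c j ≠ 0).card
  have hR : R.Nonempty := by
    refine ⟨v, hv, fun x ↦ ?_⟩
    have := congrFun hMv x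
    rw [Matrix.mulVec, dotProduct] at this
    simp only [mat_apply, Pi.zero_apply] at this
    rw [← this]
    exact Finset.sum_congr rfl fun j _ ↦ mul_comm _ _
  obtain ⟨c, ⟨hc0, hc⟩, hmin⟩ := (InvImage.wf size Nat.lt_wfRel.wf).has_min R hR
  refine ⟨c, hc, ?_, ?_⟩
  · intro g hg j j' hj hj'
    by_contra hne
    let c' : X → ℂ := fun i ↦ (denom g τ₀ ^ k i - denom g τ₀ ^ k j') * c i
    have hc' : c' ∈ R := by
      refine ⟨fun h ↦ ?_, fun x ↦ ?_⟩
      · have := congrFun h j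
        simp only [c', Pi.zero_apply, mul_eq_zero] at this
        rcases this with h | h
        · exact hne (sub_eq_zero.mp h)
        · exact hj h
      · have h1 : ∑ i, c i * (denom g τ₀ ^ k i * f i x τ₀) = 0 := by
          rw [← hc (g • x)]
          refine Finset.sum_congr rfl fun i _ ↦ ?_
          have := (hf i).apply_smul g (g • x) τ₀
          rw [hg, inv_smul_smul] at this
          rw [this]
        have h2 : ∑ i, c' i * f i x τ₀ =
            ∑ i, c i * (denom g τ₀ ^ k i * f i x τ₀) - denom g τ₀ ^ k j' * ∑ i, c i * f i x τ₀ := by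
          rw [Finset.mul_sum, ← Finset.sum_sub_distrib]
          refine Finset.sum_congr rfl fun i _ ↦ ?_
          simp only [c']
          ring
        rw [h2, h1, hc, mul_zero, sub_zero]
    refine hmin c' hc' ?_
    show size c' < size c
    refine Finset.card_lt_card ⟨?_, ?_⟩
    · intro i hi
      simp only [Finset.mem_filter, Finset.mem_univ, true_and] at hi ⊢
      exact right_ne_zero_of_mul hi
    · intro h
      have : j' ∈ Finset.univ.filter fun j ↦ c' j ≠ 0 := h (by simp [hj'])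
      simp [c'] at this
  · obtain ⟨j₁, hj₁⟩ := Function.ne_iff.mp hc0
    obtain ⟨j₀, hj₀, hmax⟩ := Finset.exists_max_image (Finset.univ.filter fun j ↦ c j ≠ 0) k
      ⟨j₁, by simpa using hj₁⟩
    exact ⟨j₀, by simpa using hj₀, fun j hj ↦ hmax j (by simpa using hj)⟩

/-- common argument at a point: multiply by powers of a nonvanishing form -/
theorem IsMinTuple.absurd_of_relation {k : X → ℤ} {f : X → X → ℍ → ℂ} (hf : IsMinTuple k f)
    {τ₀ : ℍ} {w : ℤ} {p : ℍ → ℂ} (hp : IsPrimitiveAt w p τ₀) {c : X → ℂ}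
    (hc : ∀ x, ∑ j, c j * f j x τ₀ = 0) {j₀ : X} (hj₀ : c j₀ ≠ 0) (e : ℤ) (he : e < w)
    (hm : ∀ j, c j ≠ 0 → ∃ q, IsLevelOne (k j₀ + e - k j) q ∧ q τ₀ ≠ 0) : False := by
  classical
  have h1 : ∀ j, ∃ q, IsLevelOne (k j₀ + e - k j) q ∧ q τ₀ = c j := by
    intro j
    by_cases hj : c j = 0
    · exact ⟨0, isLevelOne_zero _, by simp [hj]⟩
    · obtain ⟨q, hq, hq0⟩ := hm j hj
      refine ⟨(c j / q τ₀) • q, hq.smul _, ?_⟩
      simp only [Pi.smul_apply, smul_eq_mul]
      field_simp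
  choose m hm1 hm2 using h1
  have := hf.le_of_point_relation hp hc hm1 hm2 hj₀
  omega

theorem IsMinTuple.det_ne_zero {k : X → ℤ} {f : X → X → ℍ → ℂ} (hf : IsMinTuple k f)
    (hneg : ∀ x : X, (-1 : SL(2, ℤ)) • x = x) (τ₀ : ℍ) : (mat f τ₀).det ≠ 0 := by
  by_cases h4 : E₄ τ₀ = 0
  · obtain ⟨γ, rfl⟩ := exists_smul_of_E₄_eq_zero h4 E₄_ω
    rw [det_mat_smul_ne_zero_iff hf.form]
    intro h0
    obtain ⟨c, hc, hst, j₀, hj₀, hmax⟩ := exists_minimal_relation hf.form h0
    refine hf.absurd_of_relation (isPrimitiveAt_E₄ E₄_ω) hc hj₀ 0 (by norm_num) fun j hj ↦ ?_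
    have h1 := hst _ ST_smul_ω j₀ j hj₀ hj
    rw [denom_ST_ω] at h1
    have hd : (ω : ℂ) + 1 ≠ 0 := by
      rw [← denom_ST_ω]; exact denom_ne_zero _ _
    have h2 : (6 : ℤ) ∣ k j₀ - k j := by
      refine zpow_ω_eq_one ?_
      rw [zpow_sub₀ hd, h1, div_self (zpow_ne_zero _ hd)]
    obtain ⟨t, ht⟩ := h2
    have ht0 : 0 ≤ t := by have := hmax j hj; omega
    lift t to ℕ using ht0
    refine ⟨(E₆ : ℍ → ℂ) ^ t, (isLevelOne_E₆.pow t).congr_weight (by rw [add_zero, ht]; ring), ?_⟩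
    exact pow_ne_zero _ (E₆_ne_zero_of_E₄ E₄_ω)
  by_cases h6 : E₆ τ₀ = 0
  · obtain ⟨γ, rfl⟩ := exists_smul_of_E₆_eq_zero h6 E₆_I
    rw [det_mat_smul_ne_zero_iff hf.form]
    intro h0
    obtain ⟨c, hc, hst, j₀, hj₀, hmax⟩ := exists_minimal_relation hf.form h0
    refine hf.absurd_of_relation (isPrimitiveAt_E₆ E₆_I) hc hj₀ 0 (by norm_num) fun j hj ↦ ?_
    have h1 := hst _ S_smul_I j₀ j hj₀ hj
    rw [ModularGroup.denom_S] at h1
    have h2 : (4 : ℤ) ∣ k j₀ - k j := by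
      refine zpow_I_eq_one ?_
      rw [zpow_sub₀ Complex.I_ne_zero]
      have : ((I : ℍ) : ℂ) = Complex.I := rfl
      rw [this] at h1
      rw [h1, div_self (zpow_ne_zero _ Complex.I_ne_zero)]
    obtain ⟨t, ht⟩ := h2
    have ht0 : 0 ≤ t := by have := hmax j hj; omega
    lift t to ℕ using ht0
    refine ⟨(E₄ : ℍ → ℂ) ^ t, (isLevelOne_E₄.pow t).congr_weight (by rw [add_zero, ht]; ring), ?_⟩
    exact pow_ne_zero _ (E₄_ne_zero_of_E₆ E₆_I)
  · intro h0
    obtain ⟨c, hc, hst, j₀, hj₀, hmax⟩ := exists_minimal_relation hf.form h0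
    refine hf.absurd_of_relation (isPrimitiveAt_P12 h4 h6) hc hj₀ 4 (by norm_num) fun j hj ↦ ?_
    have h1 := hmax j hj
    obtain ⟨a, ha⟩ := hf.even hneg j₀
    obtain ⟨b, hb⟩ := hf.even hneg j
    obtain ⟨l, hl⟩ : ∃ l : ℕ, (l : ℤ) = a - b + 2 := ⟨(a - b + 2).toNat, by
      rw [Int.toNat_of_nonneg]; omega⟩
    refine ⟨mon l, (isLevelOne_mon (by omega)).congr_weight (by omega), ?_⟩
    simp only [mon, Pi.mul_apply, Pi.pow_apply]
    exact mul_ne_zero (pow_ne_zero _ h4) (pow_ne_zero _ h6)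

end Fermat.Agent.GenusLB
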