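import Fermat.Agent.GenusLB.Division

/-!
# Tuples of `X`-forms of minimal total weight
-/

set_option autoImplicit false

open UpperHalfPlane ModularForm ModularFormClass MatrixGroups EisensteinSeries Filter
open scoped Manifold MatrixGroups ModularForm Topology

namespace Fermat.Agent.GenusLB

open Fermat.Agent.LevelOne

variable {X : Type} [MulAction SL(2, ℤ) X] [Fintype X] [DecidableEq X]

/-- the matrix `(f j x τ)_{x, j}` -/
def mat (f : X → X → ℍ → ℂ) (τ : ℍ) : Matrix X X ℂ := Matrix.of fun x j ↦ f j x τ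

omit [MulAction SL(2, ℤ) X] [Fintype X] [DecidableEq X] in
@[simp] theorem mat_apply (f : X → X → ℍ → ℂ) (τ : ℍ) (x j : X) : mat f τ x j = f j x τ := rfl

/-- an `X`-indexed tuple of `X`-forms with generically nonvanishing determinant -/
structure IsTuple (k : X → ℤ) (f : X → X → ℍ → ℂ) : Prop where
  form : ∀ j, IsXForm (k j) (f j)
  nonvan : ∃ τ, (mat f τ).det ≠ 0

omit [MulAction SL(2, ℤ) X] in
theorem mdiff_det {f : X → X → ℍ → ℂ} (hf : ∀ j x, MDiff (f j x)) :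
    MDiff (fun τ ↦ (mat f τ).det) := by
  have : (fun τ ↦ (mat f τ).det) =
      ∑ σ : Equiv.Perm X, (Function.const ℍ ((Equiv.Perm.sign σ : ℤ) : ℂ)) * ∏ i, f i (σ i) := by
    ext τ
    rw [Matrix.det_apply']
    simp
  rw [this]
  refine MDifferentiable.sum fun σ _ ↦ ?_
  exact (mdifferentiable_const).mul (MDifferentiable.prod fun i _ ↦ hf i (σ i))

/-- the replacement step -/
theorem IsTuple.replace {k : X → ℤ} {f : X → X → ℍ → ℂ} (hf : IsTuple k f)
    {p : ℍ → ℂ} {m : X → ℍ → ℂ} {G : X → ℍ → ℂ} {K : ℤ} (hG : IsXForm K G)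
    (h : ∀ x τ, ∑ j, m j τ * f j x τ = p τ * G x τ) (j₀ : X) (hm : MDiff (m j₀))
    (hm0 : m j₀ ≠ 0) :
    IsTuple (Function.update k j₀ K) (Function.update f j₀ G) where
  form j := by
    by_cases hj : j = j₀
    · subst hj; simpa using hG
    · simpa [Function.update_of_ne hj] using hf.form j
  nonvan := by
    have key : ∀ τ, p τ * (mat (Function.update f j₀ G) τ).det = m j₀ τ * (mat f τ).det := by
      intro τ
      have e1 : mat (Function.update f j₀ G) τ = (mat f τ).updateCol j₀ (fun x ↦ G x τ) := by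
        ext x j
        by_cases hj : j = j₀
        · subst hj; simp [mat]
        · simp [mat, Function.update_of_ne hj, Matrix.updateCol_ne hj]
      rw [e1, ← Matrix.det_updateCol_smul]
      have e2 : (p τ • fun x ↦ G x τ) = fun x ↦ ∑ j, m j τ • (mat f τ) x j := by
        ext x
        simp only [Pi.smul_apply, smul_eq_mul, mat_apply]
        exact (h x τ).symm
      rw [e2, Matrix.det_updateCol_sum, smul_eq_mul]
    obtain ⟨τ₁, hτ₁⟩ := hf.nonvan
    have h1 : m j₀ * (fun τ ↦ (mat f τ).det) ≠ 0 := by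
      intro h0
      rcases (UpperHalfPlane.mul_eq_zero_iff hm
        (mdiff_det fun j x ↦ (hf.form j).mdiff x)).mp h0 with h1 | h1
      · exact hm0 h1
      · exact hτ₁ (congrFun h1 τ₁)
    obtain ⟨τ, hτ⟩ := Function.ne_iff.mp h1
    refine ⟨τ, fun h0 ↦ hτ ?_⟩
    have := key τ
    rw [h0, mul_zero] at this
    exact this.symm

theorem IsTuple.ne_zero {k : X → ℤ} {f : X → X → ℍ → ℂ} (hf : IsTuple k f) (j : X) :
    f j ≠ 0 := by
  intro h0
  obtain ⟨τ, hτ⟩ := hf.nonvan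
  refine hτ (Matrix.det_eq_zero_of_column_eq_zero j fun x ↦ ?_)
  rw [mat_apply, h0]; rfl

theorem IsTuple.even {k : X → ℤ} {f : X → X → ℍ → ℂ} (hf : IsTuple k f)
    (hneg : ∀ x : X, (-1 : SL(2, ℤ)) • x = x) (j : X) : Even (k j) := by
  by_contra h
  exact hf.ne_zero j ((hf.form j).eq_zero_of_odd (Int.not_even_iff_odd.mp h) hneg)

theorem IsTuple.nonneg [MulAction.IsPretransitive SL(2, ℤ) X] {k : X → ℤ} {f : X → X → ℍ → ℂ}
    (hf : IsTuple k f) (j : X) : 0 ≤ k j := by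
  by_contra h
  have : Nonempty X := ⟨j⟩
  exact hf.ne_zero j ((hf.form j).eq_zero_of_neg (not_le.mp h))

/-- a tuple of minimal total weight -/
structure IsMinTuple (k : X → ℤ) (f : X → X → ℍ → ℂ) : Prop extends IsTuple k f where
  min : ∀ (k' : X → ℤ) (f' : X → X → ℍ → ℂ), IsTuple k' f' → ∑ j, k j ≤ ∑ j, k' j

theorem exists_isMinTuple [MulAction.IsPretransitive SL(2, ℤ) X]
    (h : ∃ (k : X → ℤ) (f : X → X → ℍ → ℂ), IsTuple k f) :
    ∃ (k : X → ℤ) (f : X → X → ℍ → ℂ), IsMinTuple k f := by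
  let S : Set ℕ := {n | ∃ (k : X → ℤ) (f : X → X → ℍ → ℂ), IsTuple k f ∧ ∑ j, k j = n}
  have hS : S.Nonempty := by
    obtain ⟨k, f, hf⟩ := h
    refine ⟨(∑ j, k j).toNat, k, f, hf, ?_⟩
    rw [Int.toNat_of_nonneg]
    exact Finset.sum_nonneg fun j _ ↦ hf.nonneg j
  obtain ⟨k, f, hf, hk⟩ := Nat.sInf_mem hS
  refine ⟨k, f, hf, fun k' f' hf' ↦ ?_⟩
  have h0 : 0 ≤ ∑ j, k' j := Finset.sum_nonneg fun j _ ↦ hf'.nonneg j
  have : (∑ j, k' j).toNat ∈ S := ⟨k', f', hf', by rw [Int.toNat_of_nonneg h0]⟩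
  have := Nat.sInf_le this
  rw [hk]
  omega

/-- consequence of minimality: a relation at a point -/
theorem IsMinTuple.le_of_relation {k : X → ℤ} {f : X → X → ℍ → ℂ} (hf : IsMinTuple k f)
    {p : ℍ → ℂ} {m : X → ℍ → ℂ} {G : X → ℍ → ℂ} {K : ℤ} (hG : IsXForm K G)
    (h : ∀ x τ, ∑ j, m j τ * f j x τ = p τ * G x τ) (j₀ : X) (hm : MDiff (m j₀))
    (hm0 : m j₀ ≠ 0) : k j₀ ≤ K := by
  have h1 := hf.min _ _ (hf.toIsTuple.replace hG h j₀ hm hm0)
  rw [Finset.sum_update_of_mem (Finset.mem_univ j₀)] at h1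
  rw [← Finset.add_sum_erase _ _ (Finset.mem_univ j₀)] at h1
  rw [Finset.sdiff_singleton_eq_erase] at h1
  omega

theorem IsMinTuple.le_of_point_relation {k : X → ℤ} {f : X → X → ℍ → ℂ} (hf : IsMinTuple k f)
    {τ₀ : ℍ} {w K : ℤ} {p : ℍ → ℂ} (hp : IsPrimitiveAt w p τ₀) {c : X → ℂ}
    (hc : ∀ x, ∑ j, c j * f j x τ₀ = 0) {m : X → ℍ → ℂ} (hm : ∀ j, IsLevelOne (K - k j) (m j))
    (hmc : ∀ j, m j τ₀ = c j) {j₀ : X} (hj₀ : c j₀ ≠ 0) : k j₀ ≤ K - w := by
  have h1 : IsXForm K (fun x ↦ ∑ j, m j * f j x) := by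
    have h2 := IsXForm.sum (k := K) (Finset.univ : Finset X) (F := fun j x ↦ m j * f j x)
      (fun j _ ↦ ((hf.form j).levelOne_mul (hm j)).congr_weight (by ring))
    convert h2 using 1
    ext x
    simp
  obtain ⟨G, hG, hFG⟩ := h1.exists_div hp (fun x ↦ by
    simp only [Finset.sum_apply, Pi.mul_apply, hmc]
    exact hc x)
  refine hf.le_of_relation hG (p := p) (m := m) (fun x τ ↦ ?_) j₀ (hm j₀).mdiff ?_
  · have := congrFun (hFG x) τ
    simpa using this
  · intro h0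
    rw [← hmc, h0] at hj₀
    exact hj₀ rfl

end Fermat.Agent.GenusLB
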