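import Fermat.Agent.LevelOne.Basic

/-!
# Vector valued modular forms for a permutation representation

For an `SL(2, ℤ)`-set `X`, a weight `k` `X`-form is a family `F : X → ℍ → ℂ` with
`F x ∣[k] γ = F (γ⁻¹ • x)`.
-/

set_option autoImplicit false

open UpperHalfPlane ModularForm ModularFormClass MatrixGroups EisensteinSeries Filter
open scoped Manifold MatrixGroups ModularForm Topology

namespace Fermat.Agent.GenusLB

open Fermat.Agent.LevelOne

/-- weight `k` modular forms with values in the permutation representation `ℂ^X` -/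
structure IsXForm {X : Type} [MulAction SL(2, ℤ) X] (k : ℤ) (F : X → ℍ → ℂ) : Prop where
  mdiff : ∀ x, MDiff (F x)
  bdd : ∀ x, IsBoundedAtImInfty (F x)
  slash : ∀ (γ : SL(2, ℤ)) (x : X), F x ∣[k] γ = F (γ⁻¹ • x)

variable {X : Type} [MulAction SL(2, ℤ) X] {k l : ℤ} {F G : X → ℍ → ℂ}

theorem IsXForm.congr_weight (hF : IsXForm k F) (h : k = l) : IsXForm l F := h ▸ hF

theorem isXForm_zero (k : ℤ) : IsXForm k (0 : X → ℍ → ℂ) where
  mdiff _ := (isLevelOne_zero k).mdiff
  bdd _ := (isLevelOne_zero k).bdd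
  slash γ _ := (isLevelOne_zero k).slash γ

theorem IsXForm.add (hF : IsXForm k F) (hG : IsXForm k G) : IsXForm k (F + G) where
  mdiff x := (hF.mdiff x).add (hG.mdiff x)
  bdd x := (hF.bdd x).add (hG.bdd x)
  slash γ x := by
    show (F x + G x) ∣[k] γ = F (γ⁻¹ • x) + G (γ⁻¹ • x)
    rw [SlashAction.add_slash, hF.slash, hG.slash]

theorem IsXForm.sum {ι : Type*} (s : Finset ι) {F : ι → X → ℍ → ℂ}
    (hF : ∀ i ∈ s, IsXForm k (F i)) : IsXForm k (∑ i ∈ s, F i) := by
  classical
  induction s using Finset.induction_on with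
  | empty => simpa using isXForm_zero k
  | insert a s ha ih =>
    rw [Finset.sum_insert ha]
    exact (hF a (Finset.mem_insert_self a s)).add
      (ih fun i hi ↦ hF i (Finset.mem_insert_of_mem hi))

/-- product with a level one form -/
theorem IsXForm.levelOne_mul {p : ℍ → ℂ} (hp : IsLevelOne k p) (hF : IsXForm l F) :
    IsXForm (k + l) (fun x ↦ p * F x) where
  mdiff x := hp.mdiff.mul (hF.mdiff x)
  bdd x := hp.bdd.mul (hF.bdd x)
  slash γ x := by
    rw [mul_slash_SL2, hp.slash, hF.slash]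

theorem IsXForm.smul (c : ℂ) (hF : IsXForm k F) : IsXForm k (fun x ↦ c • F x) := by
  have := hF.levelOne_mul (isLevelOne_const c)
  rw [zero_add] at this
  exact this

/-- the pairing of two `X`-forms is a level one form -/
theorem IsXForm.pairing [Fintype X] (hF : IsXForm k F) (hG : IsXForm l G) :
    IsLevelOne (k + l) (∑ x, F x * G x) where
  mdiff := MDifferentiable.sum fun x _ ↦ (hF.mdiff x).mul (hG.mdiff x)
  bdd := by
    rw [IsBoundedAtImInfty, Filter.BoundedAtFilter, Finset.sum_fn]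
    exact .fun_sum fun x _ ↦ (hF.bdd x).mul (hG.bdd x)
  slash γ := by
    rw [SlashAction.sum_slash]
    simp_rw [mul_slash_SL2, hF.slash, hG.slash]
    exact Equiv.sum_comp (MulAction.toPerm (γ⁻¹)) (fun x ↦ F x * G x)

/-- the sum of the components of an `X`-form is a level one form -/
theorem IsXForm.trace [Fintype X] (hF : IsXForm k F) : IsLevelOne k (∑ x, F x) where
  mdiff := MDifferentiable.sum fun x _ ↦ (hF.mdiff x)
  bdd := by
    rw [IsBoundedAtImInfty, Filter.BoundedAtFilter, Finset.sum_fn]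
    exact .fun_sum fun x _ ↦ hF.bdd x
  slash γ := by
    rw [SlashAction.sum_slash]
    simp_rw [hF.slash]
    exact Equiv.sum_comp (MulAction.toPerm (γ⁻¹)) (fun x ↦ F x)

/-- the product of the components of an `X`-form is a level one form -/
theorem IsXForm.norm [Fintype X] (hF : IsXForm k F) :
    IsLevelOne (k * Fintype.card X) (∏ x, F x) where
  mdiff := MDifferentiable.prod fun x _ ↦ (hF.mdiff x)
  bdd := by
    rw [IsBoundedAtImInfty, Filter.BoundedAtFilter]
    rw [show (1 : ℍ → ℝ) = (fun x ↦ ∏ (i : X), 1) by ext; simp, Finset.prod_fn]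
    exact .finsetProd fun x _ ↦ hF.bdd x
  slash γ := by
    have h := ModularForm.prod_slash (k := k) (g := (γ : GL (Fin 2) ℝ)) (f := F)
      (s := Finset.univ)
    rw [Finset.card_univ] at h
    have hdet : |((Matrix.GeneralLinearGroup.det (γ : GL (Fin 2) ℝ) : ℝˣ) : ℝ)| = 1 := by simp
    rw [hdet, one_zpow, one_smul] at h
    refine h.trans ?_
    have h2 : ∀ x, F x ∣[k] (γ : GL (Fin 2) ℝ) = F (γ⁻¹ • x) := hF.slash γ
    simp_rw [h2]
    exact Equiv.prod_comp (MulAction.toPerm (γ⁻¹)) (fun x ↦ F x)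

/-- on a transitive `X`, if one component vanishes then all do -/
theorem IsXForm.eq_zero_of_apply_eq_zero [MulAction.IsPretransitive SL(2, ℤ) X]
    (hF : IsXForm k F) {x : X} (hx : F x = 0) : F = 0 := by
  funext y
  obtain ⟨g, hg⟩ := MulAction.exists_smul_eq SL(2, ℤ) x y
  have := hF.slash g⁻¹ x
  rw [inv_inv, hg, hx, SlashAction.zero_slash] at this
  exact this.symm

theorem IsXForm.eq_zero_of_neg [Fintype X] [Nonempty X] [MulAction.IsPretransitive SL(2, ℤ) X]
    (hF : IsXForm k F) (hk : k < 0) : F = 0 := by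
  have h1 := hF.norm.eq_zero_of_neg
    (mul_neg_of_neg_of_pos hk (by exact_mod_cast Fintype.card_pos))
  rw [UpperHalfPlane.prod_eq_zero_iff (fun x _ ↦ hF.mdiff x)] at h1
  obtain ⟨x, -, hx⟩ := h1
  exact hF.eq_zero_of_apply_eq_zero hx

theorem IsXForm.eq_zero_of_odd (hF : IsXForm k F) (hk : Odd k)
    (hneg : ∀ x : X, (-1 : SL(2, ℤ)) • x = x) : F = 0 := by
  funext x
  have h := hF.slash (-1) x
  have h2 : ((-1 : SL(2, ℤ)))⁻¹ = -1 := by
    rw [inv_eq_iff_mul_eq_one]; simp
  rw [h2, hneg x] at h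
  ext τ
  have h3 := congrFun h τ
  rw [SL_slash_apply, ModularGroup.denom_apply] at h3
  have h4 : (-1 : SL(2, ℤ)) • τ = τ := by
    apply UpperHalfPlane.ext
    rw [UpperHalfPlane.specialLinearGroup_apply]
    simp
  rw [h4] at h3
  have h5 : (((-1 : SL(2, ℤ)) 1 0 : ℤ) : ℂ) * τ + (((-1 : SL(2, ℤ)) 1 1 : ℤ) : ℂ) = -1 := by simp
  rw [h5, Odd.neg_one_zpow hk.neg] at h3
  have h6 : (2 : ℂ) * F x τ = 0 := by linear_combination -h3
  simpa using h6

end Fermat.Agent.GenusLB
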